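import Fermat.Agent.LT.A2.H467.WeilExSpec

/-!
# Row LT, tower A2, station A2.03.1.1 `WX467.DataC` -- THE CUT (sub-architect helper467)

OFF-MAIN.  Definitions, frozen Props and the top `dataC_of_leaves467`.
No holes, no opaque constant, nothing assumed.

    DataC  ⟸  AsmC + PsiC + ProdIntC + TorusMeasC + GoodArithC + InducedC
                + LocGoodC + LocBadC + LocCpxC
    LocGoodC, LocBadC  ⟸  LocRepC + LocUniqC          (`LocGoodOfRepC`, `LocBadOfRepC`)

* The LOCAL leaves are stated PER PLACE with the certificates of `WeilExSpec.lean` VERBATIM: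
  "there are components at `v` such that EVERY `L' : WData K` with these components (and the
  given `t`, `n`, `χT`, `ψ`, and a level as required) satisfies `FinAt L' v` / `GoodAt L' v` /
  `CpxAt L' u`".
* `LocRepC` is THE LOCAL WEIL REPRESENTATION at a finite place: one triple `(μ_v, γ_v, η_v)` and
  for EVERY Schwartz--Bruhat function `Φ` a family with the local axioms and `F 1 1 = Φ`.
  `LocUniqC`: a family is determined by `F 1 1` (Bruhat decomposition).  Together:
  `F^Φ (g k) (m κ) = F^{Φ'} g m`, `Φ' = F^Φ k κ`, so right invariance under `(k, κ)` is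
  `F^Φ k κ = Φ`.
* Rescaling: if `(μ, γ, η, F)` satisfies `LocAx` then so does `(s μ, s⁻² γ, η, F)`, `s > 0`.
  At a good place take `μ_v(𝒪_v) = 1`; then `γ_v = 1` follows from `(w n(1))³ = 1`, `w⁴ = 1`
  applied to `stdFn v` (`FT(stdFn) = stdFn`, `ψ_v(Q) = 1` on `𝒪_v²`).
* `AsmC` (assembly) is a leaf: choice of the local components place by place, the level
  `𝔫 = 𝔡 · ∏_{v ∈ S} v^{N_v}`, `η = ∏ η_v`, and the fields of `IsGood`.
-/

set_option autoImplicit false

open IsDedekindDomain NumberField AutomorphicForm MeasureTheory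
open scoped MatrixGroups Topology

noncomputable section

namespace Fermat.Agent.LT.A2.WX467

open Fermat.Agent.LT.H130 Fermat.Agent.LT.H556 Fermat.Agent.LT.A2

/-! ## 1. Vocabulary -/

section Vocab

variable {K : Type} [Field K] [NumberField K]

/-- The three properties of a Haar measure used by `LocAx.haar` (Borel σ-algebra). -/
def IsHaarL {k : Type} [Field k] [TopologicalSpace k] (μ : @Measure k (borel k)) : Prop :=
  (letI : MeasurableSpace k := borel k
    ∀ (x : k) (S : Set k), μ ((fun y => x + y) '' S) = μ S) ∧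
    (∀ C : Set k, IsCompact C → μ C < ⊤) ∧ ∀ U : Set k, IsOpen U → U.Nonempty → 0 < μ U

/-- `ψ` is a nontrivial continuous unitary additive character of the field `k`. -/
def IsCharL {k : Type} [Field k] [TopologicalSpace k] (ψ : k → ℂ) : Prop :=
  Continuous ψ ∧ (∀ x y : k, ψ (x + y) = ψ x * ψ y) ∧ (∀ x : k, ‖ψ x‖ = 1) ∧ ∃ x : k, ψ x ≠ 1

/-- `WL.IsStd.good_psi` for `ψ` at `v`, VERBATIM: `ψ_v` has conductor `𝒪_v`. -/
def GoodPsi (ψ : A0.Adl K → ℂ) (v : HeightOneSpectrum (𝓞 K)) : Prop :=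
  (∀ x : A0.Adl K, WL.AdlAtFin v x → x.2 v ∈ v.adicCompletionIntegers K → ψ x = 1) ∧
    ∃ x : A0.Adl K, WL.AdlAtFin v x ∧ Valued.v (x.2 v) = WithZero.exp (1 : ℤ) ∧ ψ x ≠ 1

/-- `WL.IsStd.good_int`, `good_char`, `good_norm` for `t`, `n`, `χT` at `v`, VERBATIM. -/
def GoodTor (t n : K) (χT : A0.G K → ℂ) (v : HeightOneSpectrum (𝓞 K)) : Prop :=
  (Valued.v (algebraMap K (v.adicCompletion K) t) ≤ 1 ∧
    Valued.v (algebraMap K (v.adicCompletion K) n) ≤ 1 ∧
    Valued.v (algebraMap K (v.adicCompletion K) (t ^ 2 - 4 * n)) = 1) ∧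
  (∀ κ : A0.G K, WL.InTorusIntAt t n v κ → χT κ = 1) ∧
  ∀ a : (A0.Adl K)ˣ, IsUnitIdeleAt v a →
    ∃ κ : A0.G K, WL.InTorusIntAt t n v κ ∧ Matrix.GeneralLinearGroup.det κ = a

/-- **The arithmetic of a good place** (`WL.IsStd.good_int`, `good_char`, `good_norm`,
`good_psi`, VERBATIM, for `t`, `n`, `χT`, `ψ`); `GoodArith = GoodTor ∧ GoodPsi`
(`goodArith_of467`). -/
structure GoodArith (t n : K) (χT : A0.G K → ℂ) (ψ : A0.Adl K → ℂ)
    (v : HeightOneSpectrum (𝓞 K)) : Prop where
  good_int : Valued.v (algebraMap K (v.adicCompletion K) t) ≤ 1 ∧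
    Valued.v (algebraMap K (v.adicCompletion K) n) ≤ 1 ∧
    Valued.v (algebraMap K (v.adicCompletion K) (t ^ 2 - 4 * n)) = 1
  good_char : ∀ κ : A0.G K, WL.InTorusIntAt t n v κ → χT κ = 1
  good_norm : ∀ a : (A0.Adl K)ˣ, IsUnitIdeleAt v a →
    ∃ κ : A0.G K, WL.InTorusIntAt t n v κ ∧ Matrix.GeneralLinearGroup.det κ = a
  good_psi : (∀ x : A0.Adl K, WL.AdlAtFin v x → x.2 v ∈ v.adicCompletionIntegers K →
      ψ x = 1) ∧
    ∃ x : A0.Adl K, WL.AdlAtFin v x ∧ Valued.v (x.2 v) = WithZero.exp (1 : ℤ) ∧ ψ x ≠ 1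

theorem goodArith_of467 {t n : K} {χT : A0.G K → ℂ} {ψ : A0.Adl K → ℂ}
    {v : HeightOneSpectrum (𝓞 K)} (h1 : GoodTor t n χT v) (h2 : GoodPsi ψ v) :
    GoodArith t n χT ψ v :=
  ⟨h1.1, h1.2.1, h1.2.2, h2⟩

/-- `L'` has the global objects `t`, `n`, `χT`, `ψ`. -/
def Matches (L' : WData K) (t n : K) (χT : A0.G K → ℂ) (ψ : A0.Adl K → ℂ) : Prop :=
  L'.t = t ∧ L'.n = n ∧ L'.χT = χT ∧ L'.ψ = ψ

/-- `L'` has the given components at the finite place `v`. -/
def MatchesFin (L' : WData K) (v : HeightOneSpectrum (𝓞 K))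
    (ψv : v.adicCompletion K → ℂ)
    (μv : @Measure (v.adicCompletion K) (borel (v.adicCompletion K)))
    (γv : ℂ) (ηv : v.adicCompletion K → ℂ)
    (Fv : Matrix (Fin 2) (Fin 2) (v.adicCompletion K) →
      Matrix (Fin 2) (Fin 2) (v.adicCompletion K) →
      v.adicCompletion K × v.adicCompletion K → ℂ)
    (Tv : Set (Matrix (Fin 2) (Fin 2) (v.adicCompletion K))) : Prop :=
  L'.ψfin v = ψv ∧ L'.μfin v = μv ∧ L'.γfin v = γv ∧ L'.ηfin v = ηv ∧ L'.Ffin v = Fv ∧
    L'.Tlev v = Tv

/-- `L'` has the given components at the infinite place `u`. -/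
def MatchesInf (L' : WData K) (u : InfinitePlace K)
    (ψu : u.Completion → ℂ) (μu : @Measure u.Completion (borel u.Completion))
    (γu : ℂ) (ηu : u.Completion → ℂ)
    (Fu : Matrix (Fin 2) (Fin 2) u.Completion → Matrix (Fin 2) (Fin 2) u.Completion →
      u.Completion × u.Completion → ℂ) : Prop :=
  L'.ψinf u = ψu ∧ L'.μinf u = μu ∧ L'.γinf u = γu ∧ L'.ηinf u = ηu ∧ L'.Finf u = Fu

/-- `ProdInt` with explicit measures and constant (`ProdInt L` is
`ProdIntOf L.μ L.μinf L.μfin L.c`, see `prodInt_iff467`). -/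
def ProdIntOf (μ : @Measure (A0.Adl K) (borel (A0.Adl K)))
    (μinf : ∀ u : InfinitePlace K, @Measure u.Completion (borel u.Completion))
    (μfin : ∀ v : HeightOneSpectrum (𝓞 K),
      @Measure (v.adicCompletion K) (borel (v.adicCompletion K)))
    (c : ℂ) : Prop :=
  c ≠ 0 ∧
  ∀ (f : ∀ u : InfinitePlace K, u.Completion × u.Completion → ℂ)
    (f' : ∀ v : HeightOneSpectrum (𝓞 K), v.adicCompletion K × v.adicCompletion K → ℂ),
    (∀ u, Continuous (f u) ∧ IntegrableL (μinf u) (f u)) →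
    (∀ v, Continuous (f' v) ∧ IntegrableL (μfin v) (f' v)) →
    (∃ S : Finset (HeightOneSpectrum (𝓞 K)), ∀ v, v ∉ S → f' v = stdFn v) →
    Integrable2 μ (prodFn f f') ∧
      integral2 μ (prodFn f f')
        = c * ((∏ u : InfinitePlace K, intL (μinf u) (f u)) *
            ∏ᶠ v : HeightOneSpectrum (𝓞 K), intL (μfin v) (f' v))

theorem prodInt_iff467 (L : WData K) : ProdInt L ↔ ProdIntOf L.μ L.μinf L.μfin L.c :=
  Iff.rfl

end Vocab

/-! ## 2. The global leaves -/

section GlobalLeaves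

/-- **A2.03.1.1.1 PSI.**  There is a nontrivial continuous unitary character of `𝔸_K` trivial
on `K` whose local components have conductor `𝒪_v` at almost all `v` (`ψ = ψ_ℚ ∘ Tr`: the
conductor is the inverse different; or Pontryagin duality of the compact group `𝔸_K / K` and
`𝔸_K = K + K_∞ + ∏ 𝒪_v`).  Tate's thesis §4.1; Weil BNT IV §2. -/
def PsiC : Prop :=
  ∀ (K : Type) [Field K] [NumberField K], T1.T1Out K →
    ∃ ψ : A0.Adl K → ℂ, IsAdeleChar ψ ∧
      ∃ S : Finset (HeightOneSpectrum (𝓞 K)), ∀ v, v ∉ S → GoodPsi ψ v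

/-- **A2.03.1.1.2 PROD-INT.**  For a Haar measure `μ` of `𝔸_K` and local Haar measures with
`μ_v(𝒪_v) = 1` at almost all `v` there is a constant `c ≠ 0` with
`∫_{𝔸²} ∏ f_v = c ∏_v ∫_{K_v²} f_v` (the Haar measure of the open subgroup
`∏_{v ∈ S} K_v² × ∏_{v ∉ S} 𝒪_v²` is a product measure; uniqueness of the Haar measure). -/
def ProdIntC : Prop :=
  ∀ (K : Type) [Field K] [NumberField K], T1.T1Out K →
    ∀ (μ : @Measure (A0.Adl K) (borel (A0.Adl K)))
      (μinf : ∀ u : InfinitePlace K, @Measure u.Completion (borel u.Completion))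
      (μfin : ∀ v : HeightOneSpectrum (𝓞 K),
        @Measure (v.adicCompletion K) (borel (v.adicCompletion K))),
      IsCovolOne μ → (∀ u, IsHaarL (μinf u)) → (∀ v, IsHaarL (μfin v)) →
      (∃ S : Finset (HeightOneSpectrum (𝓞 K)), ∀ v, v ∉ S →
        μfin v (v.adicCompletionIntegers K : Set (v.adicCompletion K)) = 1) →
      ∃ c : ℂ, ProdIntOf μ μinf μfin c

/-- **A2.03.1.1.3 TORUS-MEAS.**  The measures of `KData.IsMeasured`: the Haar measure `μ` of
`𝔸_K` of covolume `1`, a Haar measure `μT` of the norm-one torus `T¹(𝔸_K)` (as a measure on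
`GL₂(𝔸_K)` carried by `T¹`), and a relatively compact Borel fundamental domain of `T¹(K)`
(`T¹(K) \ T¹(𝔸_K)` is compact: Fujisaki's lemma for `L`, or for `K` twice in coordinates). -/
def TorusMeasC : Prop :=
  ∀ (K : Type) [Field K] [NumberField K] (t n : K), T1.T1Out K →
    (∀ x : K, x ^ 2 - t * x + n ≠ 0) →
    ∃ (μ : @Measure (A0.Adl K) (borel (A0.Adl K))) (μT : @Measure (A0.G K) (borel (A0.G K)))
      (DT : Set (A0.G K)),
      ∀ D : KData K, D.t = t → D.n = n → D.μ = μ → D.μT = μT → D.DT = DT → D.IsMeasured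

/-- **A2.03.1.1.4 GOOD-ARITH.**  Almost all places are good for the torus: `t`, `n` integral,
the discriminant a unit, `χT` trivial on `T(𝒪_v)` (continuity and finite order), the norm
`T(𝒪_v) → 𝒪_v^×` onto (`𝒪_v[ω]` is étale: Hensel, and the norm of a finite field is onto). -/
def GoodArithC : Prop :=
  ∀ (K : Type) [Field K] [NumberField K] (t n : K) (χT : A0.G K → ℂ),
    T1.T1Out K → IsTorusChar t n χT →
    ∃ S : Finset (HeightOneSpectrum (𝓞 K)), ∀ v, v ∉ S → GoodTor t n χT v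

/-- **A2.03.1.1.5 INDUCED.**  The eigensystem of the induced data exists for every level outside
which the places are good: at a good place the integral elements of `T(K_v)` with determinant a
uniformiser form two classes modulo `T(𝒪_v)` (split) or none (inert), and `χT` is trivial on
`T(𝒪_v)`. -/
def InducedC : Prop :=
  ∀ (K : Type) [Field K] [NumberField K] (t n : K) (χT : A0.G K → ℂ) (ψ : A0.Adl K → ℂ),
    IsTorusChar t n χT → ∀ 𝔫 : Ideal (𝓞 K), 𝔫 ≠ ⊥ →
    (∀ v : HeightOneSpectrum (𝓞 K), ¬ v.asIdeal ∣ 𝔫 → GoodArith t n χT ψ v) →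
    ∃ π : HeckeEigensystem K ℂ, π.level = 𝔫 ∧ InducedDataT t n χT π

end GlobalLeaves

/-! ## 3. The local leaves -/

section LocalLeaves

/-- **A2.03.1.1.6 LOC-REP (THE LOCAL WEIL REPRESENTATION at a finite place; STATION).**
For a nontrivial character `ψ_v` of `K_v` and `t`, `n` with `t² - 4n ≠ 0` there are a Haar
measure, a constant `γ` and a function `η` such that EVERY locally constant function with
compact support on `K_v²` is the initial vector `F 1 1` of a family with the local axioms,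
whose members are locally constant with compact support.
Bruhat formulas (`h = d(det g)⁻¹ g = [[a, b], [c, d]] ∈ SL₂(K_v)`, `r(g, m) = L(m) r(h)`):
`r(h) Φ(ξ) = η(a) |a| ψ(ab Q(ξ)) Φ(a ξ)` (`c = 0`),
`r(h) Φ(ξ) = γ η(-c) |c|⁻¹ ∫ ψ((a Q(ξ) - B(ξ, y) + d Q(y)) / c) Φ(y) dy` (`c ≠ 0`).
Needs: Fourier inversion on `S(K_v²)`; the Gauss identity
`∫ ψ(a Q(y)) FT(Ψ)(y) dy = c(a) ∫ Ψ(x) ψ(-Q(x)/a) dx`; `c(a) = c(1) η(a) |a|⁻¹` with `η` a
character of `K_v^× / N(T(K_v))` of order `≤ 2`.  Weil 1964 §§ 13--16, 24--28; JL Prop. 1.3. -/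
def LocRepC : Prop :=
  ∀ (K : Type) [Field K] [NumberField K] (v : HeightOneSpectrum (𝓞 K)) (t n : K)
    (ψv : v.adicCompletion K → ℂ), t ^ 2 - 4 * n ≠ 0 → IsCharL ψv →
    ∃ (μv : @Measure (v.adicCompletion K) (borel (v.adicCompletion K))) (γv : ℂ)
      (ηv : v.adicCompletion K → ℂ),
      ∀ Φ : v.adicCompletion K × v.adicCompletion K → ℂ,
        IsLocallyConstant Φ → HasCompactSupport Φ →
        ∃ F : Matrix (Fin 2) (Fin 2) (v.adicCompletion K) →
            Matrix (Fin 2) (Fin 2) (v.adicCompletion K) →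
            v.adicCompletion K × v.adicCompletion K → ℂ,
          LocAx (fun x => ‖x‖) (algebraMap K (v.adicCompletion K) t)
              (algebraMap K (v.adicCompletion K) n) ψv μv γv ηv F ∧
            (∀ g m : Matrix (Fin 2) (Fin 2) (v.adicCompletion K),
              AdmL (algebraMap K (v.adicCompletion K) t)
                (algebraMap K (v.adicCompletion K) n) g m →
              IsLocallyConstant (F g m) ∧ HasCompactSupport (F g m)) ∧
            F 1 1 = Φ

/-- **A2.03.1.1.7 LOC-UNIQ.**  A family with the local axioms is determined on the admissible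
pairs by its initial vector: `(g, m) = (d(δ) h, m)`, `h ∈ SL₂(k)` (`LocAx.tor`), and
`h = n(x) t(a)` or `h = n(x) t(a) w n(y)` (Bruhat; `unip`, `diag`, `weyl`).  Any field `k`,
any POSITIVE `absv` (for `absv δ ≤ 0` the axiom `tor` says nothing about `F g m`). -/
def LocUniqC : Prop :=
  ∀ (k : Type) [Field k] [TopologicalSpace k] (absv : k → ℝ) (t n : k) (ψ : k → ℂ)
    (μ : @Measure k (borel k)) (γ : ℂ) (η : k → ℂ)
    (F F' : Matrix (Fin 2) (Fin 2) k → Matrix (Fin 2) (Fin 2) k → k × k → ℂ),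
    (∀ a : k, a ≠ 0 → 0 < absv a) →
    LocAx absv t n ψ μ γ η F → LocAx absv t n ψ μ γ η F' → F 1 1 = F' 1 1 →
    ∀ g m : Matrix (Fin 2) (Fin 2) k, AdmL t n g m → F g m = F' g m

/-- **A2.03.1.1.8 LOC-GOOD.**  At a good place there are components with `FinAt`, and `GoodAt`
if moreover `η` is `η_v` on the ideles supported at `v` (used by `good_eta` only), for every
product datum with these components whose level is prime to `v`:  `Φ_v = stdFn v`, `μ_v(𝒪_v) = 1`, `Tlev v = T(𝒪_v)`;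
`GL₂(𝒪_v)` is generated by `n(x)`, `t(a)`, `d(a)`, `w`; `γ_v = 1` by `(w n(1))³ = w⁴ = 1`;
`η_v(ϖ) = -1` at an inert place (Gauss sum of the norm form of `𝔽_{q²} / 𝔽_q`: `-q`). -/
def LocGoodC : Prop :=
  ∀ (K : Type) [Field K] [NumberField K] (t n : K) (χT : A0.G K → ℂ) (ψ : A0.Adl K → ℂ)
    (v : HeightOneSpectrum (𝓞 K)),
    T1.T1Out K → IsTorusChar t n χT → IsAdeleChar ψ → GoodArith t n χT ψ v →
    ∃ (ψv : v.adicCompletion K → ℂ)
      (μv : @Measure (v.adicCompletion K) (borel (v.adicCompletion K)))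
      (γv : ℂ) (ηv : v.adicCompletion K → ℂ)
      (Fv : Matrix (Fin 2) (Fin 2) (v.adicCompletion K) →
        Matrix (Fin 2) (Fin 2) (v.adicCompletion K) →
        v.adicCompletion K × v.adicCompletion K → ℂ)
      (Tv : Set (Matrix (Fin 2) (Fin 2) (v.adicCompletion K))),
      ∀ L' : WData K, Matches L' t n χT ψ → MatchesFin L' v ψv μv γv ηv Fv Tv →
        ¬ v.asIdeal ∣ L'.π.level →
        FinAt L' v ∧
          ((∀ a : (A0.Adl K)ˣ, IsIdeleAt v a → L'.η a = ηv ((a : A0.Adl K).2 v)) →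
            GoodAt L' v)

/-- **A2.03.1.1.9 LOC-BAD.**  At every finite place there are a depth `N` and components with
`FinAt` for every product datum with these components whose level is divisible by `v ^ N`:
`Φ_v` = the indicator function of `1 + ϖ^M 𝒪_{L,v}` in the coordinates `1, ω`,
`Tlev v = T(K_v) ∩ (1 + ϖ^M 𝒪_{L,v})`, `M` large (`χT = 1` on `Tlev v`), then `N` large
(Iwahori factorisation of `U(ϖ^N)`; `det U(ϖ^N) ⊆ N(Tlev v)`). -/
def LocBadC : Prop :=
  ∀ (K : Type) [Field K] [NumberField K] (t n : K) (χT : A0.G K → ℂ) (ψ : A0.Adl K → ℂ)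
    (v : HeightOneSpectrum (𝓞 K)),
    T1.T1Out K → IsTorusChar t n χT → IsAdeleChar ψ →
    ∃ (N : ℕ) (ψv : v.adicCompletion K → ℂ)
      (μv : @Measure (v.adicCompletion K) (borel (v.adicCompletion K)))
      (γv : ℂ) (ηv : v.adicCompletion K → ℂ)
      (Fv : Matrix (Fin 2) (Fin 2) (v.adicCompletion K) →
        Matrix (Fin 2) (Fin 2) (v.adicCompletion K) →
        v.adicCompletion K × v.adicCompletion K → ℂ)
      (Tv : Set (Matrix (Fin 2) (Fin 2) (v.adicCompletion K))),
      ∀ L' : WData K, Matches L' t n χT ψ → MatchesFin L' v ψv μv γv ηv Fv Tv →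
        L'.π.level ≤ v.asIdeal ^ N → FinAt L' v

/-- **A2.03.1.1.10 LOC-CPX.**  At a complex place there are components with `CpxAt`: in the
split coordinates `z_i = ξ₁ + ω_i ξ₂` the form is `z₁ z₂`, the partial Fourier transform in `z₂`
carries the Weil representation to the natural action of `GL₂(ℂ)` on the functions on `ℂ²`, and
the Gaussian to a Gaussian fixed by `U(2)`.  JL §1 (Prop. 1.6), §5. -/
def LocCpxC : Prop :=
  ∀ (K : Type) [Field K] [NumberField K] (t n : K) (χT : A0.G K → ℂ) (ψ : A0.Adl K → ℂ)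
    (u : InfinitePlace K),
    T1.T1Out K → IsTorusChar t n χT → IsAdeleChar ψ → u.IsComplex →
    ∃ (ψu : u.Completion → ℂ) (μu : @Measure u.Completion (borel u.Completion))
      (γu : ℂ) (ηu : u.Completion → ℂ)
      (Fu : Matrix (Fin 2) (Fin 2) u.Completion → Matrix (Fin 2) (Fin 2) u.Completion →
        u.Completion × u.Completion → ℂ),
      ∀ L' : WData K, Matches L' t n χT ψ → MatchesInf L' u ψu μu γu ηu Fu → CpxAt L' u

/-- **A2.03.1.1.11**: `LocGoodC` from the local Weil representation. -/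
def LocGoodOfRepC : Prop := LocRepC → LocUniqC → LocGoodC

/-- **A2.03.1.1.12**: `LocBadC` from the local Weil representation. -/
def LocBadOfRepC : Prop := LocRepC → LocUniqC → LocBadC

end LocalLeaves

/-! ## 4. The assembly and the top -/

/-- **A2.03.1.1.13 ASM (assembly).**  `DataC` from the global and the local leaves: `ψ` (`PsiC`),
`μ`, `μT`, `DT` (`TorusMeasC`), the finite set `S ⊇ {v ∣ 𝔡}` of the places which are not good
(`GoodArithC`), the local components (choice: `LocGoodC` at `v ∉ S`, `LocBadC` at `v ∈ S`,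
`LocCpxC` at the infinite places), the level `𝔫 = 𝔡 · ∏_{v ∈ S} v ^ {N_v + 1}` and `π`
(`InducedC`), `η = ∏ η_v`, `c` (`ProdIntC`).  Mechanical (`≈ 600` lines). -/
def AsmC : Prop :=
  PsiC → ProdIntC → TorusMeasC → GoodArithC → InducedC → LocGoodC → LocBadC → LocCpxC → DataC

/-- **The top of the station `DataC`.** -/
theorem dataC_of_leaves467 (hasm : AsmC) (hpsi : PsiC) (hint : ProdIntC) (htor : TorusMeasC)
    (harith : GoodArithC) (hind : InducedC) (hrep : LocRepC) (huniq : LocUniqC)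
    (hgood : LocGoodOfRepC) (hbad : LocBadOfRepC) (hcpx : LocCpxC) : DataC :=
  hasm hpsi hint htor harith hind (hgood hrep huniq) (hbad hrep huniq) hcpx

end Fermat.Agent.LT.A2.WX467

end
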