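import Fermat.Agent.LT.A2.H467.DataSpec

/-!
# Row LT, tower A2, station A2.03.1 `WL.WeilExC` -- TOP v2 (helper467), ADDITIVE

`WeilExSpec.lean` (966c0978) and `DataSpec.lean` (72cb2b55) are UNCHANGED.

FAIL #16448 (helper637): `OrbC` as typed in `WeilExSpec.lean` is quantified over ALL number
fields; at a REAL place `CpxAt` is satisfiable, the local family is even in `ξ_u`, and if
`χT(-1_u) = -1` the orbital integral vanishes identically, so `OrbOut.ne_zero` can fail.
(`χT = 1` on `T(K_u)` needs `T(K_u)` connected, i.e. `u` complex.)

`OrbTCC` = `OrbC` with the hypothesis `∀ u, u.IsComplex` (in scope in `WL.WeilExC`).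
`weilEx_of_leaves_tc467` takes `OrbTCC`, and the output of tower T1 for TOTALLY COMPLEX fields
only.  The other leaves are those of v1, VERBATIM.
-/

set_option autoImplicit false

open IsDedekindDomain NumberField AutomorphicForm MeasureTheory

noncomputable section

namespace Fermat.Agent.LT.A2.WX467

open Fermat.Agent.LT.H130 Fermat.Agent.LT.H556 Fermat.Agent.LT.A2

/-- **A2.03.1.8b ORB (totally complex fields).**  `OrbC` with the hypothesis that all infinite
places are complex: then `χT = 1` on the connected groups `T(K_u)`, the orbital integrand at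
`(1, 1)` is `≥ 0` and `> 0` at `1`. -/
def OrbTCC : Prop :=
  ∀ (K : Type) [Field K] [NumberField K] (L : WData K),
    (∀ u : InfinitePlace K, u.IsComplex) →
    T1.T1Out K → L.IsGood → BorelOut L.toKData L.η → L.toKData.IsRegular →
    DecayOut L.toKData → OrbOut L.toKData

theorem orbTCC_of_orbC467 (h : OrbC) : OrbTCC :=
  fun K _ _ L _ hT1 hgood hB hreg hdecay => h K L hT1 hgood hB hreg hdecay

/-- **The top of the station, v2**: `WL.WeilExC` from the leaves (`OrbTCC` instead of `OrbC`),
the output of tower T1 at the TOTALLY COMPLEX fields and `Poisson2C`. -/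
theorem weilEx_of_leaves_tc467
    (hT1 : ∀ (K : Type) [Field K] [NumberField K],
      (∀ u : InfinitePlace K, u.IsComplex) → T1.T1Out K)
    (hP : Poisson2C)
    (hData : DataC) (hBorel : BorelC) (hReg : RegC) (hWeyl : WeylC) (hRat : RatC)
    (hRInv : RightInvC) (hStd : StdLocC) (hOrb : OrbTCC) : WL.WeilExC := by
  intro K _ _ t n χT hχ hcpx 𝔡 h𝔡
  have hT := hT1 K hcpx
  obtain ⟨L, ht, hn, hχT, hlev, hgood⟩ := hData K t n χT hT hχ hcpx 𝔡 h𝔡
  have hB := hBorel K L hT hgood
  obtain ⟨hreg, hdecay⟩ := hReg K L hT hgood
  have hW := hWeyl hP K L hT hgood hB hreg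
  have hR := hRat K L.toKData L.η hT hB hW
  obtain ⟨hri, hinv⟩ := hRInv K L hT hgood hB
  have hS := hStd K L hT hgood
  have hO := hOrb K L hcpx hT hgood hB hreg hdecay
  have hind : InducedDataT t n χT L.toKData.π := by
    have h := hgood.induced
    rw [ht, hn, hχT] at h
    exact h
  refine ⟨L.toKData, L.η, ht, hn, hχT, hlev, ?_, hind, ?_⟩
  · exact
      { torus := hgood.torus
        char := hgood.char
        measured := hgood.measured
        weil :=
          { unip := hB.unip
            weyl := hW.weyl
            diagK := hR.diagK
            torK := hR.torK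
            tor1 := hB.tor1 }
        regular := hreg
        right_inv := hri }
  · exact
      { quad :=
          { mul := hB.eta_mul
            sq := hB.eta_sq
            cont := hB.eta_cont
            rat := hW.rat
            norm := hB.eta_norm }
        diagA := hB.diagA
        torA := hB.torA
        good_int := fun v hv => (hgood.good v hv).good_int
        good_char := fun v hv => (hgood.good v hv).good_char
        good_norm := fun v hv => (hgood.good v hv).good_norm
        good_eta := fun v hv => (hgood.good v hv).good_eta
        good_psi := fun v hv => (hgood.good v hv).good_psi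
        good_std := hS.good_std
        good_inv := hinv.good_inv
        cpx := hS.cpx
        cpx_inv := hinv.cpx_inv
        decay := hdecay
        orb_dom := hO.orb_dom
        ne_zero := hO.ne_zero }

end Fermat.Agent.LT.A2.WX467

end
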