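import Fermat.Agent.LT.A2.WeilLocal

/-!
# Row LT, tower A2, station A2.03.1 `WL.WeilExC` -- THE CUT (sub-architect helper467)

OFF-MAIN.  Definitions, frozen Props and the PROVED top `weilEx_of_leaves467`.
No holes, no opaque constant, nothing assumed.

    WL.WeilExC  ⟸  DataC  +  BorelC + RatC + RegC + WeylC + RightInvC + StdLocC + OrbC

The cut is HORIZONTAL, as in `WeilLocal.lean`:

* `DataC` (the CONSTRUCTION, a station): there are *product data* `L : WData K` -- a global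
  character `ψ`, measures, a level, and for EVERY place a LOCAL WEIL FAMILY
  `F_v : M₂(K_v) × M₂(K_v) × K_v² → ℂ` with local constants `γ_v`, `η_v`, `μ_v` -- which are GOOD
  (`WData.IsGood`): every local family satisfies the LOCAL left-translation axioms `LocAx`
  (`F_v(n(x) g) = ψ_v(x Q) F_v(g)`, `F_v(w g) = γ_v FT_v(F_v(g))`,
  `F_v(t(a) g) = η_v(a) |a|_v F_v(g)(a ·)`, torus formula), is STANDARD at the places not dividing
  the level (`GoodAt`), SMOOTH with a positive initial vector at the other finite places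
  (`BadAt`), GAUSSIAN at the complex places (`CpxAt`), and the global objects are the products
  of the local ones (`ψ`, `η`, integrals).  The global family is DEFINED by
  `F g m ξ = ∏_u F_u(g_u, m_u, ξ_u) · ∏_v F_v(g_v, m_v, ξ_v)`  (`WData.F`).
* the other leaves are CONSUMERS of `IsGood`: each one proves a group of fields of `KData.Good`
  / `WL.IsStd` for the explicit `L.toKData`.

## Why no normalisation is imposed on `γ_v`, `μ_v`

Only `Γ c⁻¹` matters, `Γ = ∏ γ_v`, `c` the constant of `∫_{𝔸²} = c · ∏_v ∫_{K_v²}`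
(`IsGood.prod_int`).  `WeylC` PROVES `Γ = c` (and `η = 1` on `K^×`, quadratic reciprocity for
`L/K`) from Poisson summation, by the relations `(w n(1))³ = 1`, `w⁴ = 1` and
`w n(a) w = t(-a⁻¹) n(-a) w n(-a⁻¹)` applied to `Θ(g) = ∑_{ξ ∈ K²} F g m ξ`:
`Θ(w g) = Γ c⁻¹ Θ(g)`, `Θ(n(b) g) = Θ(g)` (`b ∈ K`), `Θ(t(a) g) = η(a) Θ(g)` (`a ∈ K^×`), hence
`(Γ c⁻¹)³ = (Γ c⁻¹)⁴ = 1` and `(Γ c⁻¹)² = η(-a⁻¹) Γ c⁻¹` as soon as `Θ(g) ≠ 0` for one `g`
(`Θ(1) > 0`: the initial vector is `≥ 0` and `> 0` at `(1, 0)`).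
So the local owners are free to choose ANY Haar measure `μ_v` with the matching constant `γ_v`
(standard at the good places).

Conventions: `LT-A2-tower.md` §3 (helper950).  `w = [[0,1],[-1,0]]`, `n(x) = [[1,x],[0,1]]`,
`t(a) = diag(a, a⁻¹)`, `d(a) = diag(1, a)`; module of a complex place = SQUARE of the norm.
-/

set_option autoImplicit false

open IsDedekindDomain NumberField AutomorphicForm MeasureTheory
open scoped MatrixGroups Topology

noncomputable section

namespace Fermat.Agent.LT.A2.WX467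

open Fermat.Agent.LT.H130 Fermat.Agent.LT.H556 Fermat.Agent.LT.A2

/-! ## 1. Local vocabulary (a field `k`; `k = K_v` or `k = K_u`) -/

section Local

variable {k : Type} [Field k]

/-- `Q(x, y) = x² + t x y + n y²`. -/
def qfL (t n : k) (ξ : k × k) : k := ξ.1 ^ 2 + t * ξ.1 * ξ.2 + n * ξ.2 ^ 2

/-- `B(ξ, y) = Q(ξ + y) - Q(ξ) - Q(y)`. -/
def bfL (t n : k) (ξ y : k × k) : k := qfL t n (ξ + y) - qfL t n ξ - qfL t n y

/-- The action of a matrix on a column vector, written on pairs. -/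
def actL (m : Matrix (Fin 2) (Fin 2) k) (ξ : k × k) : k × k :=
  (m 0 0 * ξ.1 + m 0 1 * ξ.2, m 1 0 * ξ.1 + m 1 1 * ξ.2)

/-- `m ∈ T(k)` or `m` is a singular matrix of the form `a + b M_ω`. -/
def InTorL (t n : k) (m : Matrix (Fin 2) (Fin 2) k) : Prop :=
  ∃ a b : k, m = torMat t n a b

/-- The local admissible pairs: `m ∈ T(k)`, `det g = det m ≠ 0`. -/
def AdmL (t n : k) (g m : Matrix (Fin 2) (Fin 2) k) : Prop :=
  InTorL t n m ∧ g.det = m.det ∧ m.det ≠ 0

/-- The integral over `k²` for the product measure `μ × μ` (Borel σ-algebras). -/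
def intL [TopologicalSpace k] (μ : @Measure k (borel k)) (f : k × k → ℂ) : ℂ :=
  letI : MeasurableSpace k := borel k
  ∫ y, f y ∂(μ.prod μ)

/-- Integrability on `k²` for the product measure `μ × μ` (Borel σ-algebras). -/
def IntegrableL [TopologicalSpace k] (μ : @Measure k (borel k)) (f : k × k → ℂ) : Prop :=
  letI : MeasurableSpace k := borel k
  Integrable f (μ.prod μ)

/-- **The local axioms of a Weil family** at one place (module `absv`, additive character `ψ`,
Haar measure `μ`, constant `γ`, quadratic character `η`).  Only LEFT translations. -/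
structure LocAx [TopologicalSpace k] (absv : k → ℝ) (t n : k) (ψ : k → ℂ)
    (μ : @Measure k (borel k)) (γ : ℂ) (η : k → ℂ)
    (F : Matrix (Fin 2) (Fin 2) k → Matrix (Fin 2) (Fin 2) k → k × k → ℂ) : Prop where
  /-- `F (n(x) g) m ξ = ψ(x Q(ξ)) F g m ξ`. -/
  unip : ∀ (x : k) (g m : Matrix (Fin 2) (Fin 2) k) (ξ : k × k), AdmL t n g m →
    F (!![1, x; 0, 1] * g) m ξ = ψ (x * qfL t n ξ) * F g m ξ
  /-- `F (w g) m ξ = γ ∫ F g m y ψ(B(ξ, y)) dy`. -/
  weyl : ∀ (g m : Matrix (Fin 2) (Fin 2) k) (ξ : k × k), AdmL t n g m →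
    F (!![0, 1; -1, 0] * g) m ξ = γ * intL μ fun y => F g m y * ψ (bfL t n ξ y)
  /-- `F (t(a) g) m ξ = η(a) |a| F g m (a ξ)`. -/
  diag : ∀ a : k, a ≠ 0 → ∀ (g m : Matrix (Fin 2) (Fin 2) k) (ξ : k × k), AdmL t n g m →
    F (!![a, 0; 0, a⁻¹] * g) m ξ = η a * ((absv a : ℝ) : ℂ) * F g m (a • ξ)
  /-- `|det μ'|^{1/2} F (d(det μ') g) (μ' m) ξ = F g m (μ'⁻¹ ξ)`, `μ' ∈ T(k)`. -/
  tor : ∀ μ' : Matrix (Fin 2) (Fin 2) k, InTorL t n μ' → μ'.det ≠ 0 →
    ∀ (g m : Matrix (Fin 2) (Fin 2) k) (ξ : k × k), AdmL t n g m →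
      ((Real.sqrt (absv μ'.det) : ℝ) : ℂ) * F (!![1, 0; 0, μ'.det] * g) (μ' * m) ξ
        = F g m (actL μ'⁻¹ ξ)
  eta_mul : ∀ a b : k, a ≠ 0 → b ≠ 0 → η (a * b) = η a * η b
  eta_sq : ∀ a : k, a ≠ 0 → η a = 1 ∨ η a = -1
  eta_norm : ∀ μ' : Matrix (Fin 2) (Fin 2) k, InTorL t n μ' → μ'.det ≠ 0 → η μ'.det = 1
  eta_cont : ContinuousOn η {a | a ≠ 0}
  haar : (letI : MeasurableSpace k := borel k
    ∀ (x : k) (S : Set k), μ ((fun y => x + y) '' S) = μ S) ∧
    (∀ C : Set k, IsCompact C → μ C < ⊤) ∧ ∀ U : Set k, IsOpen U → U.Nonempty → 0 < μ U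
  psi_char : Continuous ψ ∧ (∀ x y : k, ψ (x + y) = ψ x * ψ y) ∧ ∀ x : k, ‖ψ x‖ = 1
  cont : ∀ g m : Matrix (Fin 2) (Fin 2) k, AdmL t n g m → Continuous (F g m)
  integrable : ∀ g m : Matrix (Fin 2) (Fin 2) k, AdmL t n g m → IntegrableL μ (F g m)

end Local

/-! ## 2. The product data -/

section Data

variable (K : Type) [Field K] [NumberField K]

/-- **The product data**: the global objects of `KData`, the quadratic character `η`, the
constant `c` of the product formula for the integrals, and for every place the local character,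
the local Haar measure, the local constants and the LOCAL WEIL FAMILY. -/
structure WData where
  t : K
  n : K
  χT : A0.G K → ℂ
  ψ : A0.Adl K → ℂ
  μ : @Measure (A0.Adl K) (borel (A0.Adl K))
  μT : @Measure (A0.G K) (borel (A0.G K))
  DT : Set (A0.G K)
  π : HeckeEigensystem K ℂ
  η : (A0.Adl K)ˣ → ℂ
  c : ℂ
  ψinf : ∀ u : InfinitePlace K, u.Completion → ℂ
  μinf : ∀ u : InfinitePlace K, @Measure u.Completion (borel u.Completion)
  γinf : InfinitePlace K → ℂ
  ηinf : ∀ u : InfinitePlace K, u.Completion → ℂ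
  Finf : ∀ u : InfinitePlace K, Matrix (Fin 2) (Fin 2) u.Completion →
    Matrix (Fin 2) (Fin 2) u.Completion → u.Completion × u.Completion → ℂ
  ψfin : ∀ v : HeightOneSpectrum (𝓞 K), v.adicCompletion K → ℂ
  μfin : ∀ v : HeightOneSpectrum (𝓞 K),
    @Measure (v.adicCompletion K) (borel (v.adicCompletion K))
  γfin : HeightOneSpectrum (𝓞 K) → ℂ
  ηfin : ∀ v : HeightOneSpectrum (𝓞 K), v.adicCompletion K → ℂ
  Ffin : ∀ v : HeightOneSpectrum (𝓞 K), Matrix (Fin 2) (Fin 2) (v.adicCompletion K) →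
    Matrix (Fin 2) (Fin 2) (v.adicCompletion K) →
    v.adicCompletion K × v.adicCompletion K → ℂ
  /-- The local level group of the torus at `v` (an open compact subgroup of `T(K_v)`;
  `T(𝒪_v)` at the good places). -/
  Tlev : ∀ v : HeightOneSpectrum (𝓞 K), Set (Matrix (Fin 2) (Fin 2) (v.adicCompletion K))

variable {K}

/-- The matrix of `g` at the infinite place `u`, with entries in the completion. -/
def infMat (u : InfinitePlace K) (g : A0.G K) : Matrix (Fin 2) (Fin 2) u.Completion :=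
  fun i j => ((g : Matrix (Fin 2) (Fin 2) (A0.Adl K)) i j).1 u

/-- The component at the infinite place `u` of a vector of `𝔸_K²`. -/
def infVec (u : InfinitePlace K) (ξ : A0.Adl K × A0.Adl K) : u.Completion × u.Completion :=
  (ξ.1.1 u, ξ.2.1 u)

/-- The component at the finite place `v` of a vector of `𝔸_K²`. -/
def finVec (v : HeightOneSpectrum (𝓞 K)) (ξ : A0.Adl K × A0.Adl K) :
    v.adicCompletion K × v.adicCompletion K :=
  (ξ.1.2 v, ξ.2.2 v)

/-- The product over all places of local functions on `K_v²`. -/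
def prodFn (f : ∀ u : InfinitePlace K, u.Completion × u.Completion → ℂ)
    (f' : ∀ v : HeightOneSpectrum (𝓞 K), v.adicCompletion K × v.adicCompletion K → ℂ)
    (ξ : A0.Adl K × A0.Adl K) : ℂ :=
  (∏ u : InfinitePlace K, f u (infVec u ξ)) *
    ∏ᶠ v : HeightOneSpectrum (𝓞 K), f' v (finVec v ξ)

/-- **The global Weil family**: the product of the local families. -/
def WData.F (L : WData K) (g m : A0.G K) (ξ : A0.Adl K × A0.Adl K) : ℂ :=
  prodFn (fun u => L.Finf u (infMat u g) (infMat u m))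
    (fun v => L.Ffin v (A0.finComp v g) (A0.finComp v m)) ξ

/-- The data of the theta construction attached to the product data. -/
def WData.toKData (L : WData K) : KData K where
  t := L.t
  n := L.n
  χT := L.χT
  ψ := L.ψ
  μ := L.μ
  μT := L.μT
  DT := L.DT
  F := L.F
  π := L.π

/-- `t` in the completion at `v`. -/
def WData.tfin (L : WData K) (v : HeightOneSpectrum (𝓞 K)) : v.adicCompletion K :=
  algebraMap K (v.adicCompletion K) L.t

/-- `n` in the completion at `v`. -/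
def WData.nfin (L : WData K) (v : HeightOneSpectrum (𝓞 K)) : v.adicCompletion K :=
  algebraMap K (v.adicCompletion K) L.n

/-- `t` in the completion at `u`. -/
def WData.tinf (L : WData K) (u : InfinitePlace K) : u.Completion :=
  algebraMap K u.Completion L.t

/-- `n` in the completion at `u`. -/
def WData.ninf (L : WData K) (u : InfinitePlace K) : u.Completion :=
  algebraMap K u.Completion L.n

/-- The indicator function of `𝒪_v²`. -/
def stdFn (v : HeightOneSpectrum (𝓞 K)) (ξ : v.adicCompletion K × v.adicCompletion K) : ℂ :=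
  letI := Classical.propDecidable
  if ξ.1 ∈ v.adicCompletionIntegers K ∧ ξ.2 ∈ v.adicCompletionIntegers K then 1 else 0

/-- The local level group at `v`: `k ≡ 1`, `k⁻¹ ≡ 1` modulo the closure of the level, `k`
invertible.  At `v ∤ 𝔫` this is `GL₂(𝒪_v)`. -/
def InLevL (𝔫 : Ideal (𝓞 K)) (v : HeightOneSpectrum (𝓞 K))
    (k : Matrix (Fin 2) (Fin 2) (v.adicCompletion K)) : Prop :=
  k.det ≠ 0 ∧ ∀ i j : Fin 2,
    (k - 1) i j ∈ A0.idealClosure 𝔫 v ∧ (k⁻¹ - 1) i j ∈ A0.idealClosure 𝔫 v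

/-- The matrix `k` with complex entries via the embedding of the completion. -/
def embMat (u : InfinitePlace K) (k : Matrix (Fin 2) (Fin 2) u.Completion) :
    Matrix (Fin 2) (Fin 2) ℂ :=
  fun i j => InfinitePlace.Completion.extensionEmbedding u (k i j)

/-- The Gaussian at the complex place `u` as a function on `K_u²` (cf. `WL.gauss`). -/
def gaussL (u : InfinitePlace K) (c ω₁ ω₂ : ℂ) (ξ : u.Completion × u.Completion) : ℂ :=
  Complex.exp (-((2 * Real.pi * ‖c‖ *
    (‖InfinitePlace.Completion.extensionEmbedding u ξ.1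
        + ω₁ * InfinitePlace.Completion.extensionEmbedding u ξ.2‖ ^ 2
      + ‖InfinitePlace.Completion.extensionEmbedding u ξ.1
        + ω₂ * InfinitePlace.Completion.extensionEmbedding u ξ.2‖ ^ 2) : ℝ) : ℂ))

/-! ### The local certificates -/

/-- **The certificate at a finite place `v`** (all finite places): Schwartz--Bruhat functions,
the local level group `Tlev v` of the torus (an open subgroup of `T(K_v)` on which `χT` is
trivial), right invariance under the pairs `(k, κ)`, `k` in the local level group of `GL₂`,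
`κ ∈ Tlev v`, `det k = det κ`, the norm of `Tlev v` contains the determinants of the level group,
positivity of the initial vector `Φ_v = F_v(1, 1)`, and `supp Φ_v ∩ T¹(K_v)⁻¹ (1, 0) ⊆ Tlev v`.
(At a place where `L_v / K_v` is wildly ramified `Tlev v` is NOT contained in the level group
of `GL₂`: the norm of `T ∩ U(ϖ^N)` is smaller than `det U(ϖ^N)`.) -/
structure FinAt (L : WData K) (v : HeightOneSpectrum (𝓞 K)) : Prop where
  ax : LocAx (fun x => ‖x‖) (L.tfin v) (L.nfin v) (L.ψfin v) (L.μfin v) (L.γfin v) (L.ηfin v)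
    (L.Ffin v)
  psi : ∀ x : A0.Adl K, WL.AdlAtFin v x → L.ψ x = L.ψfin v (x.2 v)
  sb : ∀ g m : Matrix (Fin 2) (Fin 2) (v.adicCompletion K), AdmL (L.tfin v) (L.nfin v) g m →
    IsLocallyConstant (L.Ffin v g m) ∧ HasCompactSupport (L.Ffin v g m)
  tlev_tor : ∀ κ ∈ L.Tlev v, InTorL (L.tfin v) (L.nfin v) κ ∧ κ.det ≠ 0
  tlev_nhds : ∃ U ∈ 𝓝 (1 : Matrix (Fin 2) (Fin 2) (v.adicCompletion K)),
    ∀ κ ∈ U, InTorL (L.tfin v) (L.nfin v) κ → κ ∈ L.Tlev v
  tlev_mul : ∀ κ ∈ L.Tlev v, ∀ κ' ∈ L.Tlev v, κ * κ' ∈ L.Tlev v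
  tlev_inv : ∀ κ ∈ L.Tlev v, κ⁻¹ ∈ L.Tlev v
  right_inv : ∀ k κ : Matrix (Fin 2) (Fin 2) (v.adicCompletion K),
    InLevL L.π.level v k → κ ∈ L.Tlev v → k.det = κ.det →
    ∀ (g m : Matrix (Fin 2) (Fin 2) (v.adicCompletion K))
      (ξ : v.adicCompletion K × v.adicCompletion K), AdmL (L.tfin v) (L.nfin v) g m →
      L.Ffin v (g * k) (m * κ) ξ = L.Ffin v g m ξ
  right_ex : ∀ k : Matrix (Fin 2) (Fin 2) (v.adicCompletion K), InLevL L.π.level v k →
    ∃ κ ∈ L.Tlev v, κ.det = k.det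
  chi_triv : ∀ κ : A0.G K, A0.IsLocalAtFin v κ → A0.finComp v κ ∈ L.Tlev v → L.χT κ = 1
  pos : (∀ ξ : v.adicCompletion K × v.adicCompletion K,
      0 ≤ (L.Ffin v 1 1 ξ).re ∧ (L.Ffin v 1 1 ξ).im = 0) ∧ L.Ffin v 1 1 (1, 0) ≠ 0
  orb : ∀ κ : Matrix (Fin 2) (Fin 2) (v.adicCompletion K),
    InTorL (L.tfin v) (L.nfin v) κ → κ.det = 1 → L.Ffin v 1 1 (actL κ⁻¹ (1, 0)) ≠ 0 →
    κ ∈ L.Tlev v

/-- **The certificate at a good place** `v ∤ π.level`: the arithmetic of `WL.IsStd` (`good_int`,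
`good_char`, `good_norm`, `good_eta`, `good_psi`, VERBATIM), `γ_v = 1`, `μ_v(𝒪_v) = 1`,
`Φ_v = 1_{𝒪_v²}`, `Tlev v = T(𝒪_v)`. -/
structure GoodAt (L : WData K) (v : HeightOneSpectrum (𝓞 K)) : Prop where
  good_int : Valued.v (algebraMap K (v.adicCompletion K) L.t) ≤ 1 ∧
    Valued.v (algebraMap K (v.adicCompletion K) L.n) ≤ 1 ∧
    Valued.v (algebraMap K (v.adicCompletion K) (L.t ^ 2 - 4 * L.n)) = 1
  good_char : ∀ κ : A0.G K, WL.InTorusIntAt L.t L.n v κ → L.χT κ = 1
  good_norm : ∀ a : (A0.Adl K)ˣ, IsUnitIdeleAt v a →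
    ∃ κ : A0.G K, WL.InTorusIntAt L.t L.n v κ ∧ Matrix.GeneralLinearGroup.det κ = a
  good_eta : (∀ a : (A0.Adl K)ˣ, IsUnitIdeleAt v a → L.η a = 1) ∧
    (WL.IsInertAt L.t L.n v → ∀ a : (A0.Adl K)ˣ, IsUnifIdeleAt v a → L.η a = -1)
  good_psi : (∀ x : A0.Adl K, WL.AdlAtFin v x → x.2 v ∈ v.adicCompletionIntegers K →
      L.ψ x = 1) ∧
    ∃ x : A0.Adl K, WL.AdlAtFin v x ∧ Valued.v (x.2 v) = WithZero.exp (1 : ℤ) ∧ L.ψ x ≠ 1
  gamma_one : L.γfin v = 1
  meas_one : L.μfin v (v.adicCompletionIntegers K : Set (v.adicCompletion K)) = 1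
  eta_unram : ∀ a : v.adicCompletion K, Valued.v a = 1 → L.ηfin v a = 1
  std : L.Ffin v 1 1 = stdFn v
  tlev : ∀ κ : Matrix (Fin 2) (Fin 2) (v.adicCompletion K), κ ∈ L.Tlev v ↔
    (InTorL (L.tfin v) (L.nfin v) κ ∧ κ.det ≠ 0 ∧
      (∀ i j : Fin 2, κ i j ∈ v.adicCompletionIntegers K) ∧
      ∀ i j : Fin 2, κ⁻¹ i j ∈ v.adicCompletionIntegers K)

/-- **The certificate at a (complex) infinite place `u`**: the character, the Gaussian initial
vector, right invariance under the pairs `(k, κ)`, `k ∈ U(2)`, `κ ∈ T(K_u) ∩ U(2)`,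
`det k = det κ`, joint continuity, uniform Gaussian decay on the bounded sets of admissible
pairs.  (The invariance under the positive real scalars follows from `ax.diag` and `ax.tor`:
`(z, z) = (d(z²) t(z), z)` acts by `η_u(z) = 1`.) -/
structure CpxAt (L : WData K) (u : InfinitePlace K) : Prop where
  ax : LocAx (fun x => ‖x‖ ^ u.mult) (L.tinf u) (L.ninf u) (L.ψinf u) (L.μinf u) (L.γinf u)
    (L.ηinf u) (L.Finf u)
  psi : ∀ x : A0.Adl K, WL.AdlAtInf u x → L.ψ x = L.ψinf u (x.1 u)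
  eta_one : ∀ a : u.Completion, a ≠ 0 → L.ηinf u a = 1
  gauss : ∃ c : ℂ, c ≠ 0 ∧
    (∀ x : u.Completion, L.ψinf u x = Complex.exp (4 * Real.pi * Complex.I *
        (((c * InfinitePlace.Completion.extensionEmbedding u x).re : ℝ) : ℂ))) ∧
    ∀ ω₁ ω₂ : ℂ, ω₁ + ω₂ = u.embedding L.t → ω₁ * ω₂ = u.embedding L.n →
      ∀ ξ : u.Completion × u.Completion, L.Finf u 1 1 ξ = gaussL u c ω₁ ω₂ ξ
  right_inv : ∀ k κ : Matrix (Fin 2) (Fin 2) u.Completion,
    embMat u k * (embMat u k).conjTranspose = 1 →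
    embMat u κ * (embMat u κ).conjTranspose = 1 →
    InTorL (L.tinf u) (L.ninf u) κ → k.det = κ.det →
    ∀ (g m : Matrix (Fin 2) (Fin 2) u.Completion) (ξ : u.Completion × u.Completion),
      AdmL (L.tinf u) (L.ninf u) g m → L.Finf u (g * k) (m * κ) ξ = L.Finf u g m ξ
  cont : ContinuousOn
    (fun q : (Matrix (Fin 2) (Fin 2) u.Completion × Matrix (Fin 2) (Fin 2) u.Completion) ×
        (u.Completion × u.Completion) => L.Finf u q.1.1 q.1.2 q.2)
    {q | AdmL (L.tinf u) (L.ninf u) q.1.1 q.1.2}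
  decay : ∀ R : ℝ, ∃ A δ : ℝ, 0 < δ ∧
    ∀ g m : Matrix (Fin 2) (Fin 2) u.Completion, AdmL (L.tinf u) (L.ninf u) g m →
      (∀ i j : Fin 2, ‖g i j‖ ≤ R ∧ ‖m i j‖ ≤ R ∧ ‖g⁻¹ i j‖ ≤ R ∧ ‖m⁻¹ i j‖ ≤ R) →
      ∀ ξ : u.Completion × u.Completion,
        ‖L.Finf u g m ξ‖ ≤ A * Real.exp (-δ * (‖ξ.1‖ ^ 2 + ‖ξ.2‖ ^ 2))

/-- **The product formula for the integrals**: for local functions which are continuous and
integrable, standard at almost all finite places, the product is integrable on `𝔸_K²` and its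
integral is `c` times the product of the local integrals. -/
def ProdInt (L : WData K) : Prop :=
  L.c ≠ 0 ∧
  ∀ (f : ∀ u : InfinitePlace K, u.Completion × u.Completion → ℂ)
    (f' : ∀ v : HeightOneSpectrum (𝓞 K), v.adicCompletion K × v.adicCompletion K → ℂ),
    (∀ u, Continuous (f u) ∧ IntegrableL (L.μinf u) (f u)) →
    (∀ v, Continuous (f' v) ∧ IntegrableL (L.μfin v) (f' v)) →
    (∃ S : Finset (HeightOneSpectrum (𝓞 K)), ∀ v, v ∉ S → f' v = stdFn v) →
    Integrable2 L.μ (prodFn f f') ∧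
      integral2 L.μ (prodFn f f')
        = L.c * ((∏ u : InfinitePlace K, intL (L.μinf u) (f u)) *
            ∏ᶠ v : HeightOneSpectrum (𝓞 K), intL (L.μfin v) (f' v))

/-- **The product data are GOOD.** -/
structure WData.IsGood (L : WData K) : Prop where
  torus : IsTorusChar L.t L.n L.χT
  char : IsAdeleChar L.ψ
  measured : L.toKData.IsMeasured
  induced : InducedDataT L.t L.n L.χT L.π
  cpx : ∀ u : InfinitePlace K, CpxAt L u
  fin : ∀ v : HeightOneSpectrum (𝓞 K), FinAt L v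
  good : ∀ v : HeightOneSpectrum (𝓞 K), ¬ v.asIdeal ∣ L.π.level → GoodAt L v
  eta_prod : ∀ a : (A0.Adl K)ˣ, L.η a
    = (∏ u : InfinitePlace K, L.ηinf u ((a : A0.Adl K).1 u)) *
        ∏ᶠ v : HeightOneSpectrum (𝓞 K), L.ηfin v ((a : A0.Adl K).2 v)
  prod_int : ProdInt L

end Data

/-! ## 3. The outputs of the consumer leaves (fields of `KData.Good` and `WL.IsStd`, VERBATIM) -/

section Out

variable {K : Type} [Field K] [NumberField K]

/-- The BOREL part: `IsWeil.unip`, `IsWeil.tor1`, `IsStd.diagA`, `IsStd.torA`, and the fields of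
`IsQuadChar` except `rat`. -/
structure BorelOut (D : KData K) (η : (A0.Adl K)ˣ → ℂ) : Prop where
  unip : ∀ nU : A0.Adl K → A0.G K, IsUpperUnip nU →
    ∀ (x : A0.Adl K) (g m : A0.G K) (ξ : A0.Adl K × A0.Adl K), Adm D.t D.n g m →
      D.F (nU x * g) m ξ = D.ψ (x * qf D.t D.n ξ) * D.F g m ξ
  tor1 : ∀ m' : A0.G K, InTorus1 D.t D.n m' →
    ∀ (g m : A0.G K) (ξ : A0.Adl K × A0.Adl K), Adm D.t D.n g m →
      D.F g (m' * m) ξ = D.F g m (actV m'⁻¹ ξ)
  diagA : ∀ (s : A0.G K) (a : (A0.Adl K)ˣ), WL.IsDiagSLA s a →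
    ∀ (g m : A0.G K) (ξ : A0.Adl K × A0.Adl K), Adm D.t D.n g m →
      D.F (s * g) m ξ
        = η a * ((T1.adNorm K (a : A0.Adl K) : ℝ) : ℂ) * D.F g m ((a : A0.Adl K) • ξ)
  torA : ∀ μ' d : A0.G K, InTorus D.t D.n μ' →
    WL.IsDiagOneA d (Matrix.GeneralLinearGroup.det μ') →
    ∀ (g m : A0.G K) (ξ : A0.Adl K × A0.Adl K), Adm D.t D.n g m →
      ((Real.sqrt (T1.adNorm K ((Matrix.GeneralLinearGroup.det μ' : (A0.Adl K)ˣ) : A0.Adl K))
          : ℝ) : ℂ) * D.F (d * g) (μ' * m) ξ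
        = D.F g m (actV μ'⁻¹ ξ)
  eta_mul : ∀ a b : (A0.Adl K)ˣ, η (a * b) = η a * η b
  eta_sq : ∀ a : (A0.Adl K)ˣ, η a = 1 ∨ η a = -1
  eta_cont : Continuous η
  eta_norm : ∀ m : A0.G K, InTorus D.t D.n m → η (Matrix.GeneralLinearGroup.det m) = 1

/-- `IsWeil.weyl` and `IsQuadChar.rat`. -/
structure WeylOut (D : KData K) (η : (A0.Adl K)ˣ → ℂ) : Prop where
  weyl : ∀ w : A0.G K, IsWeyl w →
    ∀ (g m : A0.G K) (ξ : A0.Adl K × A0.Adl K), Adm D.t D.n g m →
      D.F (w * g) m ξ = D.int2 fun y => D.F g m y * D.ψ (bf D.t D.n ξ y)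
  rat : ∀ x : Kˣ, η (Units.map (algebraMap K (A0.Adl K)).toMonoidHom x) = 1

/-- `IsWeil.diagK` and `IsWeil.torK`. -/
structure RatOut (D : KData K) : Prop where
  diagK : ∀ (s : A0.G K) (a : K), a ≠ 0 → IsDiagSL s a →
    ∀ (g m : A0.G K) (ξ : A0.Adl K × A0.Adl K), Adm D.t D.n g m →
      D.F (s * g) m ξ = D.F g m (algebraMap K (A0.Adl K) a • ξ)
  torK : ∀ (μ' d : A0.G K) (a : K), InTorusRat D.t D.n μ' →
    ((Matrix.GeneralLinearGroup.det μ' : (A0.Adl K)ˣ) : A0.Adl K) = algebraMap K (A0.Adl K) a →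
    IsDiagOne d a →
    ∀ (g m : A0.G K) (ξ : A0.Adl K × A0.Adl K), Adm D.t D.n g m →
      D.F (d * g) (μ' * m) ξ = D.F g m (actV μ'⁻¹ ξ)

/-- `IsStd.decay`. -/
def DecayOut (D : KData K) : Prop :=
  ∀ C : Set (A0.G K × A0.G K), IsCompact C →
    ∃ (B : Set (FiniteAdeleRing (𝓞 K) K × FiniteAdeleRing (𝓞 K) K)) (A δ : ℝ),
      IsCompact B ∧ 0 < δ ∧
      ∀ p : A0.G K × A0.G K, p ∈ C → Adm D.t D.n p.1 p.2 → ∀ ξ : A0.Adl K × A0.Adl K,
        ((ξ.1.2, ξ.2.2) ∉ B → D.F p.1 p.2 ξ = 0) ∧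
        ‖D.F p.1 p.2 ξ‖
          ≤ A * Real.exp (-δ * ∑ w : InfinitePlace K, (‖ξ.1.1 w‖ ^ 2 + ‖ξ.2.1 w‖ ^ 2))

/-- `IsStd.good_inv` and `IsStd.cpx_inv`. -/
structure InvOut (D : KData K) : Prop where
  good_inv : ∀ v : HeightOneSpectrum (𝓞 K), ¬ v.asIdeal ∣ D.π.level →
    ∀ k κ : A0.G K, WL.InMaxCompactAt v k → WL.InTorusIntAt D.t D.n v κ →
      Matrix.GeneralLinearGroup.det k = Matrix.GeneralLinearGroup.det κ →
      ∀ (g m : A0.G K) (ξ : A0.Adl K × A0.Adl K), Adm D.t D.n g m →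
        D.F (g * k) (m * κ) ξ = D.F g m ξ
  cpx_inv : ∀ (u : InfinitePlace K) (k κ : A0.G K), A0.IsArchCompact u k → InTorus D.t D.n κ →
    A0.IsArchCompact u κ → Matrix.GeneralLinearGroup.det k = Matrix.GeneralLinearGroup.det κ →
    ∀ (g m : A0.G K) (ξ : A0.Adl K × A0.Adl K), Adm D.t D.n g m →
      D.F (g * k) (m * κ) ξ = D.F g m ξ

/-- `IsStd.good_std` and `IsStd.cpx`. -/
structure StdLocOut (D : KData K) : Prop where
  good_std : ∀ v : HeightOneSpectrum (𝓞 K), ¬ v.asIdeal ∣ D.π.level →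
    ∀ g m : A0.G K, Adm D.t D.n g m → A0.TrivAtFin v g → A0.TrivAtFin v m →
      (∀ ξ : A0.Adl K × A0.Adl K, ¬ WL.VecIntegralAt v ξ → D.F g m ξ = 0) ∧
      ∀ ξ ξ' : A0.Adl K × A0.Adl K, WL.AgreeOffFin v ξ ξ' → WL.VecIntegralAt v ξ →
        WL.VecIntegralAt v ξ' → D.F g m ξ = D.F g m ξ'
  cpx : ∀ u : InfinitePlace K, u.IsComplex → ∃ c : ℂ, c ≠ 0 ∧
    (∀ x : A0.Adl K, WL.AdlAtInf u x → D.ψ x = Complex.exp (4 * Real.pi * Complex.I *
        (((c * InfinitePlace.Completion.extensionEmbedding u (x.1 u)).re : ℝ) : ℂ))) ∧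
    ∀ ω₁ ω₂ : ℂ, ω₁ + ω₂ = u.embedding D.t → ω₁ * ω₂ = u.embedding D.n →
      ∀ g m : A0.G K, Adm D.t D.n g m → A0.TrivAtInf u g → A0.TrivAtInf u m →
        ∀ ξ ξ' : A0.Adl K × A0.Adl K, WL.AgreeOffInf u ξ ξ' →
          D.F g m ξ * WL.gauss u c ω₁ ω₂ ξ' = D.F g m ξ' * WL.gauss u c ω₁ ω₂ ξ

/-- `IsStd.orb_dom` and `IsStd.ne_zero`. -/
structure OrbOut (D : KData K) : Prop where
  orb_dom : ∀ C : Set (A0.G K × A0.G K), IsCompact C →
    ∃ h : A0.G K → ℝ,
      (letI : MeasurableSpace (A0.G K) := borel (A0.G K)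
       IntegrableOn h {m | InTorus1 D.t D.n m} D.μT) ∧
      ∀ p : A0.G K × A0.G K, p ∈ C → Adm D.t D.n p.1 p.2 → ∀ m : A0.G K, InTorus1 D.t D.n m →
        ‖D.F p.1 (m * p.2) (1, 0)‖ ≤ h m
  ne_zero : ∃ g mg : A0.G K, Adm D.t D.n g mg ∧
    D.intT {m | InTorus1 D.t D.n m} (fun m => D.F g (m * mg) (1, 0) * D.χT (m * mg)) ≠ 0

end Out

/-! ## 4. The leaves -/

section Leaves

/-- **A2.03.1.1 DATA (the construction; STATION).**  For a torus character over a totally complex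
field there are GOOD product data with the prescribed `t`, `n`, `χT` and a level contained in any
prescribed nonzero ideal.  Sub-leaves (prose, registry rows A2.03.1.1.x):
PSI (`∃ ψ`, `IsAdeleChar`, local components, conductor `𝒪_v` at almost all `v`),
MEAS (`∃ μ`, `IsCovolOne`; local Haar measures, `ProdInt`),
TORUS-MEAS (`IsMeasured`: Haar measure of `T¹(𝔸_K)`, Fujisaki for the norm-one torus),
LOC-FIN (THE LOCAL WEIL REPRESENTATION at a finite place: `∃ γ_v η_v μ_v F_v`, `LocAx`, `sb`;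
  explicit Bruhat formulas `r(g) Φ(ξ) = γ η(-c) |c|⁻¹ ∫ ψ((a Q(ξ) - B(ξ,y) + d Q(y)) / c) Φ(y) dy`
  (`c ≠ 0`), `η(a) |a| ψ(ab Q(ξ)) Φ(a ξ)` (`c = 0`); Fourier inversion on `S(K_v²)`; the Gauss
  identity `FT(ψ(aQ) · FT Φ) = γ η(-a) |a|⁻¹ ψ(-Q/a) FT(ψ(-Q/a) Φ)(-·/a)`; `η_v` is a character:
  local norm index `≤ 2` and universality of `N(x) + N(y)`),
LOC-GOOD (`GoodAt`: `Φ_v = 1_{𝒪_v²}` is fixed by `R(𝒪_v)`, `γ_v = 1`),
LOC-BAD (`FinAt` at `v ∣ level`: `Φ_v = 1_{1 + ϖ^M 𝒪_{L,v}}`, `Tlev v = 1 + ϖ^M 𝒪_{L,v}`,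
  the level is chosen AFTER `M`),
LOC-CPX (`CpxAt`: partial Fourier transform to the natural action on `S(ℂ²)`),
LEVEL + INDUCED (the level; definition of `π.a`, `π.b`; `InducedDataT`),
ASM (assembly of `L` and of `IsGood`). -/
def DataC : Prop :=
  ∀ (K : Type) [Field K] [NumberField K] (t n : K) (χT : A0.G K → ℂ),
    T1.T1Out K → IsTorusChar t n χT → (∀ u : InfinitePlace K, u.IsComplex) →
    ∀ 𝔡 : Ideal (𝓞 K), 𝔡 ≠ ⊥ →
    ∃ L : WData K, L.t = t ∧ L.n = n ∧ L.χT = χT ∧ L.π.level ≤ 𝔡 ∧ L.IsGood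

/-- **A2.03.1.2 BOREL.**  The adelic Borel formulas of the product family, from the local ones:
components of a product of matrices, `ψ = ∏ ψ_v` (from `psi` and the continuity of `ψ`),
`η = ∏ η_v`, `|a|_𝔸 = ∏ |a_v|_v`; finiteness of the products (at almost all `v` the factor is
`stdFn v (ξ_v) = 1`: `GoodAt.std`, `FinAt.right_inv`). -/
def BorelC : Prop :=
  ∀ (K : Type) [Field K] [NumberField K] (L : WData K),
    T1.T1Out K → L.IsGood → BorelOut L.toKData L.η

/-- **A2.03.1.3 REG.**  Regularity of the product family and uniform decay: at the finite places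
the functions `F_v g m`, `(g, m)` in a compact set, take finitely many values (`FinAt.right_inv`,
`tlev_nhds`, `sb`); Gaussian bounds at the infinite places (`CpxAt.decay`, `cont`); the points of
`K²` in the support form a lattice in `K_∞²` (Mathlib `mixedEmbedding`); `ProdInt` for the
integrability. -/
def RegC : Prop :=
  ∀ (K : Type) [Field K] [NumberField K] (L : WData K),
    T1.T1Out K → L.IsGood → L.toKData.IsRegular ∧ DecayOut L.toKData

/-- **A2.03.1.4 WEYL + RECIPROCITY.**  The global Weyl formula with constant `1` and `η = 1` on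
`K^×`: by `LocAx.weyl` and `ProdInt`, `F (w g) m = Γ c⁻¹ FT(F g m)`, `Γ = ∏ γ_v`; then
`Γ c⁻¹ = 1` and `η(a) = 1` by Poisson summation and the relations `(w n(1))³ = 1`, `w⁴ = 1`,
`w n(a) w = t(-a⁻¹) n(-a) w n(-a⁻¹)` applied to `Θ = ∑_{ξ ∈ K²} F · · ξ` (see the header);
`Θ(1, 1) > 0` by `FinAt.pos` and `CpxAt.gauss`. -/
def WeylC : Prop :=
  Poisson2C →
  ∀ (K : Type) [Field K] [NumberField K] (L : WData K),
    T1.T1Out K → L.IsGood → BorelOut L.toKData L.η → L.toKData.IsRegular →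
    WeylOut L.toKData L.η

/-- **A2.03.1.5 RAT.**  `diagK` and `torK` from `diagA`, `torA`, `η = 1` on `K^×` and the product
formula `|a|_𝔸 = 1` (`T1.AdNormC`).  No Weil representation. -/
def RatC : Prop :=
  ∀ (K : Type) [Field K] [NumberField K] (D : KData K) (η : (A0.Adl K)ˣ → ℂ),
    T1.T1Out K → BorelOut D η → WeylOut D η → RatOut D

/-- **A2.03.1.6 RIGHT-INV.**  Right invariance: the level group (global `κ` from the local ones,
`FinAt.right_ex`, `right_inv`, `chi_triv` and the continuity of `χT`), the positive real scalars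
(`(z, z) = (d(z²) t(z), z)`), the maximal compact subgroups (`κ = s · 1`, `s² = det k`;
`CpxAt.right_inv`); `χT = 1` on the connected groups `T(K_u)`. -/
def RightInvC : Prop :=
  ∀ (K : Type) [Field K] [NumberField K] (L : WData K),
    T1.T1Out K → L.IsGood → BorelOut L.toKData L.η → L.toKData.IsRightInv ∧ InvOut L.toKData

/-- **A2.03.1.7 STD-LOC.**  The factor at `v` of the product family for `g`, `m` trivial at `v`:
`stdFn v` at the good places, the Gaussian at the complex places. -/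
def StdLocC : Prop :=
  ∀ (K : Type) [Field K] [NumberField K] (L : WData K),
    T1.T1Out K → L.IsGood → StdLocOut L.toKData

/-- **A2.03.1.8 ORB.**  The orbital integrand is dominated (`tor1`, `DecayOut`, the orbit map
`T¹(𝔸) → 𝔸²` is proper, `IsMeasured.inv`, `compact_lt`) and the orbital integral at `(1, 1)` is
`> 0` (the integrand is continuous, `≥ 0`: `FinAt.pos`, `orb`, `chi_triv`, and `> 0` at `1`;
`IsMeasured.open_pos`). -/
def OrbC : Prop :=
  ∀ (K : Type) [Field K] [NumberField K] (L : WData K),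
    T1.T1Out K → L.IsGood → BorelOut L.toKData L.η → L.toKData.IsRegular →
    DecayOut L.toKData → OrbOut L.toKData

end Leaves

/-! ## 5. The top (PROVED) -/

/-- **The top of the station**: `WL.WeilExC` from the leaves, the output of tower T1 and
`Poisson2C`. -/
theorem weilEx_of_leaves467
    (hT1 : ∀ (K : Type) [Field K] [NumberField K], T1.T1Out K) (hP : Poisson2C)
    (hData : DataC) (hBorel : BorelC) (hReg : RegC) (hWeyl : WeylC) (hRat : RatC)
    (hRInv : RightInvC) (hStd : StdLocC) (hOrb : OrbC) : WL.WeilExC := by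
  intro K _ _ t n χT hχ hcpx 𝔡 h𝔡
  obtain ⟨L, ht, hn, hχT, hlev, hgood⟩ := hData K t n χT (hT1 K) hχ hcpx 𝔡 h𝔡
  have hB := hBorel K L (hT1 K) hgood
  obtain ⟨hreg, hdecay⟩ := hReg K L (hT1 K) hgood
  have hW := hWeyl hP K L (hT1 K) hgood hB hreg
  have hR := hRat K L.toKData L.η (hT1 K) hB hW
  obtain ⟨hri, hinv⟩ := hRInv K L (hT1 K) hgood hB
  have hS := hStd K L (hT1 K) hgood
  have hO := hOrb K L (hT1 K) hgood hB hreg hdecay
  have hind : InducedDataT t n χT L.toKData.π := by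
    have h := hgood.induced
    rw [ht, hn, hχT] at h
    exact h
  refine ⟨L.toKData, L.η, ht, hn, hχT, hlev, ?_, hind, ?_⟩
  · exact
      { torus := hgood.torus
        char := hgood.char
        measured := hgood.measured
        weil :=
          { unip := hB.unip
            weyl := hW.weyl
            diagK := hR.diagK
            torK := hR.torK
            tor1 := hB.tor1 }
        regular := hreg
        right_inv := hri }
  · exact
      { quad :=
          { mul := hB.eta_mul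
            sq := hB.eta_sq
            cont := hB.eta_cont
            rat := hW.rat
            norm := hB.eta_norm }
        diagA := hB.diagA
        torA := hB.torA
        good_int := fun v hv => (hgood.good v hv).good_int
        good_char := fun v hv => (hgood.good v hv).good_char
        good_norm := fun v hv => (hgood.good v hv).good_norm
        good_eta := fun v hv => (hgood.good v hv).good_eta
        good_psi := fun v hv => (hgood.good v hv).good_psi
        good_std := hS.good_std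
        good_inv := hinv.good_inv
        cpx := hS.cpx
        cpx_inv := hinv.cpx_inv
        decay := hdecay
        orb_dom := hO.orb_dom
        ne_zero := hO.ne_zero }

end Fermat.Agent.LT.A2.WX467

end
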